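/-
S29lib (long shot "GalRep": S29, S42, later S30).  INTERFACE file (lead).  No sorries: the
interfaces are structures whose fields are the theorems the producer blocks have to supply;
the consumer blocks prove theorems that take these structures as hypotheses.

Blocks (see the team messages for owners):
* K1/K2/K3/H/D  produce `ComparisonData N p`   (Kummer comparison J0(N)[p^k] = V_Z / p^k, Hecke-equivariant)
* P (+H)        produce `EigenInput C g`        (the full eigencharacter of g cuts a 2-dimensional piece of V_Z ⊗ ℂ)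
* GH            produce `LocalData N p`         (unramified outside Np, Frobenius quadratic, finite level)
* E             consumes the three and produces `ResidualPiece N p k₀ ā`
* X             consumes `ResidualPiece` and produces a `ResidualGaloisRep k₀` with exact Frobenius charpolys
* Z             S29 / S42 from X.
-/
import Mathlib
import Fermat.Prelude.Def_ModularCurve_HeckeModule
import Fermat.Prelude.Def_GaloisRep_Residual

set_option autoImplicit false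

noncomputable section

namespace Fermat.Agent.S29lib

open ModularCurve Polynomial

/-- `ℚ̄` -/
local notation "Qb" => AlgebraicClosure ℚ
/-- `G_ℚ` -/
local notation "GQ" => (AlgebraicClosure ℚ ≃ₐ[ℚ] AlgebraicClosure ℚ)

/-- the `n`-torsion of `J₀(N)(ℚ̄)` -/
abbrev Tors (N : ℕ) [NeZero N] (n : ℕ) : Submodule ℤ (JZero N) :=
  Submodule.torsionBy ℤ (JZero N) (n : ℤ)

lemma map_mem_Tors {N : ℕ} [NeZero N] {n : ℕ} (T : JZero N →+ JZero N) {x : JZero N}
    (hx : x ∈ Tors N n) : T x ∈ Tors N n := by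
  rw [Submodule.mem_torsionBy_iff] at hx ⊢
  rw [← map_zsmul, hx, map_zero]

lemma galois_smul_zsmul {N : ℕ} [NeZero N] (σ : GQ) (m : ℤ) (x : JZero N) :
    σ • (m • x) = m • (σ • x) :=
  (DistribSMul.toAddMonoidHom (JZero N) σ).map_zsmul m x

lemma smul_mem_Tors {N : ℕ} [NeZero N] {n : ℕ} (σ : GQ) {x : JZero N}
    (hx : x ∈ Tors N n) : σ • x ∈ Tors N n := by
  rw [Submodule.mem_torsionBy_iff] at hx ⊢
  rw [← galois_smul_zsmul, hx, smul_zero]

lemma zsmul_mem_Tors {N : ℕ} [NeZero N] {n m : ℕ} {x : JZero N}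
    (hx : x ∈ Tors N (n * m)) : (m : ℤ) • x ∈ Tors N n := by
  rw [Submodule.mem_torsionBy_iff] at hx ⊢
  rw [smul_smul]
  exact_mod_cast hx

/-- **Comparison data** (Kummer comparison): Hecke operators on `J₀(N)(ℚ̄)` commuting with `G_ℚ`
(prelude's `heckeOperatorBar` at `ℓ ∤ N`, the TRANSPOSED correspondence at `ℓ ∣ N`), a lattice
`ℤ^r` (coordinates of the parabolic homs `Γ₀(N) → ℤ` in a basis; `r = 2g`) with integer matrices
`t ℓ` (the combinatorial Hecke operators), and Hecke-equivariant isomorphisms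
`J[p^k] ≃ (ℤ/p^k)^r`, compatible in `k`. -/
structure ComparisonData (N p : ℕ) [NeZero N] where
  /-- Hecke operators on `J₀(N)(ℚ̄)` -/
  TJ : Nat.Primes → (JZero N →+ JZero N)
  TJ_good : ∀ ℓ : Nat.Primes, ¬ (ℓ : ℕ) ∣ N → ∀ x : JZero N, TJ ℓ x = heckeOperatorBar N ℓ x
  TJ_galois : ∀ (ℓ : Nat.Primes) (σ : GQ) (x : JZero N), TJ ℓ (σ • x) = σ • TJ ℓ x
  /-- rank of the lattice -/
  r : ℕ
  /-- combinatorial Hecke operators on the lattice, as integer matrices -/
  t : Nat.Primes → Matrix (Fin r) (Fin r) ℤ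
  /-- the Kummer comparison at level `p^k` -/
  κ : ∀ k : ℕ, Tors N (p ^ k) ≃+ (Fin r → ZMod (p ^ k))
  κ_hecke : ∀ (k : ℕ) (ℓ : Nat.Primes) (x : Tors N (p ^ k)),
    κ k ⟨TJ ℓ x, map_mem_Tors (TJ ℓ) x.2⟩ =
      ((t ℓ).map (Int.cast : ℤ → ZMod (p ^ k))).mulVec (κ k x)
  κ_compat : ∀ (k : ℕ) (x : Tors N (p ^ (k + 1))),
    κ k ⟨(p : ℤ) • (x : JZero N), zsmul_mem_Tors (by rw [← pow_succ]; exact x.2)⟩ =
      fun i => ZMod.castHom (pow_dvd_pow p (Nat.le_succ k)) (ZMod (p ^ k)) (κ (k + 1) x i)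

/-- **Eigen input**: the eigenvalues of `g` are algebraic integers, and the simultaneous
eigenspace of the lattice (tensored with `ℂ`) for the FULL system of eigenvalues is
2-dimensional. -/
structure EigenInput {N p : ℕ} [NeZero N] (C : ComparisonData N p)
    (g : CuspForm (CongruenceSubgroup.Gamma0 N) 2) where
  /-- the eigenvalues -/
  a : Nat.Primes → integralClosure ℤ ℂ
  a_eq : ∀ ℓ : Nat.Primes, ((a ℓ : integralClosure ℤ ℂ) : ℂ) = ModularFormClass.qCoeff g ℓ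
  finrank_eigen : Module.finrank ℂ
    ↥(⨅ ℓ : Nat.Primes, LinearMap.ker
      (Matrix.toLin' ((C.t ℓ).map (Int.cast : ℤ → ℂ)) - ((a ℓ : integralClosure ℤ ℂ) : ℂ) • 1)) = 2

/-- **Local data** on the torsion of `J₀(N)(ℚ̄)`: unramified outside `Np`, Frobenius quadratic
(Eichler–Shimura, from S37 + S18), finite level. -/
structure LocalData (N p : ℕ) [NeZero N] : Prop where
  unram : ∀ ℓ : ℕ, ℓ.Prime → ¬ ℓ ∣ N * p →
    ∀ A : ValuationSubring Qb, A.LiesOverPrime ℓ → ∀ σ ∈ A.inertiaSubgroupIn ℚ,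
      ∀ (k : ℕ) (x : JZero N), x ∈ Tors N (p ^ k) → σ • x = x
  frob : ∀ (ℓ : ℕ) (hℓ : ℓ.Prime), ¬ ℓ ∣ N * p →
    ∀ A : ValuationSubring Qb, A.LiesOverPrime ℓ → ∀ σ : GQ, A.IsFrobeniusAt σ ℓ →
      ∀ (k : ℕ) (x : JZero N), x ∈ Tors N (p ^ k) →
        σ • σ • x - heckeOperatorBar N ⟨ℓ, hℓ⟩ (σ • x) + (ℓ : ℤ) • x = 0
  finiteLevel : ∀ k : ℕ, ∃ L : IntermediateField ℚ Qb, FiniteDimensional ℚ L ∧
    ∀ σ : GQ, (∀ y ∈ L, σ y = y) → ∀ x : JZero N, x ∈ Tors N (p ^ k) → σ • x = x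

/-- **Residual piece**: a 2-dimensional `k₀`-representation of `G_ℚ` of finite level, unramified
outside `Np`, on which every Frobenius at `ℓ ∤ Np` is killed by `X² - ā_ℓ X + ℓ`. -/
structure ResidualPiece (N p : ℕ) (k₀ : Type) [Field k₀] (abar : Nat.Primes → k₀) where
  /-- the space -/
  W : Type
  [instW : AddCommGroup W]
  [modW : Module k₀ W]
  finrank_eq : Module.finrank k₀ W = 2
  /-- the action -/
  ρ : GQ →* Module.End k₀ W
  finiteLevel : GaloisFactorsThroughFiniteLevel ρ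
  unram : ∀ ℓ : ℕ, ℓ.Prime → ¬ ℓ ∣ N * p →
    ∀ A : ValuationSubring Qb, A.LiesOverPrime ℓ → ∀ σ ∈ A.inertiaSubgroupIn ℚ, ρ σ = 1
  frob : ∀ (ℓ : ℕ) (hℓ : ℓ.Prime), ¬ ℓ ∣ N * p →
    ∀ A : ValuationSubring Qb, A.LiesOverPrime ℓ → ∀ σ : GQ, A.IsFrobeniusAt σ ℓ →
      ρ σ * ρ σ - abar ⟨ℓ, hℓ⟩ • ρ σ + (ℓ : k₀) • (1 : Module.End k₀ W) = 0

attribute [instance] ResidualPiece.instW ResidualPiece.modW

/-- the target of block X: a residual Galois representation with EXACT Frobenius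
characteristic polynomials, unramified outside `Np`. -/
def HasAttachedResidual (N p : ℕ) (k₀ : Type) [Field k₀] (abar : Nat.Primes → k₀) : Prop :=
  ∃ ρ : ResidualGaloisRep k₀,
    (∀ ℓ : ℕ, ℓ.Prime → ¬ ℓ ∣ N * p → ρ.IsUnramifiedAt ℓ) ∧
    ∀ (ℓ : ℕ) (hℓ : ℓ.Prime), ¬ ℓ ∣ N * p →
      ∀ A : ValuationSubring Qb, A.LiesOverPrime ℓ → ∀ σ : GQ, A.IsFrobeniusAt σ ℓ →
        LinearMap.charpoly (ρ.ρ σ) = X ^ 2 - C (abar ⟨ℓ, hℓ⟩) * X + C (ℓ : k₀)

end Fermat.Agent.S29lib
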