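/-
S29lib, interface helpers (lead): the residue fields of `ℤ̄ = integralClosure ℤ ℂ`.
* `ker φ` is a maximal ideal containing `p` for every ring hom `φ : ℤ̄ → k`, `k` a field of char `p`;
* `ℤ̄ ⧸ 𝔪` is an algebraically closed field of characteristic `p` (`𝔪` maximal, `p ∈ 𝔪`).
-/
import Mathlib

set_option autoImplicit false

noncomputable section

namespace Fermat.Agent.S29lib

open Polynomial

/-- `ℤ̄` -/
local notation "Zb" => integralClosure ℤ ℂ

theorem natCast_mem_ker {k : Type*} [Field k] (p : ℕ) [CharP k p] (φ : Zb →+* k) :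
    (p : Zb) ∈ RingHom.ker φ := by
  rw [RingHom.mem_ker, map_natCast]
  exact CharP.cast_eq_zero k p

/-- the kernel of a ring hom from `ℤ̄` to a field of characteristic `p > 0` is a maximal ideal -/
theorem ker_isMaximal_of_charP {k : Type*} [Field k] (p : ℕ) (hp : p.Prime) [CharP k p]
    (φ : Zb →+* k) : (RingHom.ker φ).IsMaximal := by
  have hprime : (RingHom.ker φ).IsPrime := RingHom.ker_isPrime φ
  have hcp : ((RingHom.ker φ).comap (algebraMap ℤ Zb)).IsPrime := Ideal.comap_isPrime _ _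
  have hne : (RingHom.ker φ).comap (algebraMap ℤ Zb) ≠ ⊥ := by
    intro h
    have hmem : (p : ℤ) ∈ (RingHom.ker φ).comap (algebraMap ℤ Zb) := by
      rw [Ideal.mem_comap]
      have := natCast_mem_ker p φ
      simpa using this
    rw [h, Ideal.mem_bot] at hmem
    exact hp.ne_zero (by exact_mod_cast hmem)
  have hcm : ((RingHom.ker φ).comap (algebraMap ℤ Zb)).IsMaximal :=
    Ideal.IsPrime.isMaximal hcp hne
  exact Ideal.isMaximal_of_isIntegral_of_isMaximal_comap (R := ℤ) (RingHom.ker φ) hcm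

section Quot

variable (𝔪 : Ideal Zb) [h𝔪 : 𝔪.IsMaximal]

/-- the residue field `ℤ̄ ⧸ 𝔪` -/
instance instFieldZbQuot : Field (Zb ⧸ 𝔪) := Ideal.Quotient.field 𝔪

/-- `ℤ̄ ⧸ 𝔪` has characteristic `p` when `p ∈ 𝔪` -/
theorem charP_quot (p : ℕ) (hp : p.Prime) (hpm : (p : Zb) ∈ 𝔪) : CharP (Zb ⧸ 𝔪) p := by
  have h0 : ((p : ℕ) : Zb ⧸ 𝔪) = 0 := by
    have : (Ideal.Quotient.mk 𝔪 (p : Zb)) = 0 := Ideal.Quotient.eq_zero_iff_mem.mpr hpm
    simpa using this
  exact (CharP.charP_iff_prime_eq_zero hp).mpr h0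

/-- `ℤ̄ ⧸ 𝔪` is algebraically closed: a monic polynomial lifts to a monic polynomial over `ℤ̄`,
whose complex roots are algebraic integers. -/
instance instIsAlgClosedZbQuot : IsAlgClosed (Zb ⧸ 𝔪) := by
  refine IsAlgClosed.of_exists_root _ fun f hfm _ => ?_
  -- lift `f` to a monic polynomial over `ℤ̄`
  obtain ⟨F, hFmap, -, hFmonic⟩ := Polynomial.lifts_and_degree_eq_and_monic
    ((Polynomial.mem_lifts f).mpr
      (Polynomial.map_surjective (Ideal.Quotient.mk 𝔪) Ideal.Quotient.mk_surjective f)) hfm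
  -- a complex root of `F`
  have hdeg : (F.map (algebraMap Zb ℂ)).degree ≠ 0 := by
    rw [Polynomial.degree_map_eq_of_injective (FaithfulSMul.algebraMap_injective Zb ℂ)]
    intro h0
    have h1 : F = 1 := by
      have := Polynomial.eq_C_of_degree_eq_zero h0
      have hc : F.coeff 0 = 1 := by
        have hl := hFmonic.leadingCoeff
        rwa [Polynomial.leadingCoeff, Polynomial.natDegree_eq_of_degree_eq_some h0] at hl
      rw [this, hc, Polynomial.C_1]
    have : f = 1 := by rw [← hFmap, h1, Polynomial.map_one]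
    -- `f` irreducible is not a unit
    rename_i hirr
    exact hirr.not_isUnit (this ▸ isUnit_one)
  obtain ⟨z, hz⟩ := IsAlgClosed.exists_root (F.map (algebraMap Zb ℂ)) hdeg
  -- `z` is integral over `ℤ̄`, hence over `ℤ`
  have hzint : IsIntegral Zb z := ⟨F, hFmonic, by
    rw [Polynomial.IsRoot.def, Polynomial.eval_map] at hz
    rwa [Polynomial.eval₂_eq_eval_map] at hz ⊢⟩
  have hzZ : IsIntegral ℤ z := isIntegral_trans z hzint
  let w : Zb := ⟨z, hzZ⟩
  refine ⟨Ideal.Quotient.mk 𝔪 w, ?_⟩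
  rw [← hFmap, Polynomial.eval_map, Polynomial.eval₂_hom]
  have hw : Polynomial.eval w F = 0 := by
    apply FaithfulSMul.algebraMap_injective Zb ℂ
    rw [map_zero, ← Polynomial.eval₂_hom, ← Polynomial.eval_map]
    exact hz
  rw [hw, map_zero]

end Quot

end Fermat.Agent.S29lib
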